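/-
S26 / P1 : quasi-coherent modules on `ℙ¹_R` given on two charts, and their cohomology.
`x0` = multiplication by `x` on the chart `Spec R[x]`, `y1` = multiplication by `y = 1/x` on the
chart `Spec R[y]`, `x01` = multiplication by `x` on the overlap.
-/
import Fermat.Agent.S26.Defs

set_option autoImplicit false

open scoped TensorProduct

universe u

namespace Fermat.Agent.S26

/-- a quasi-coherent module of finite type on `ℙ¹_R` -/
structure P1Mod (R : Type u) [CommRing R] where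
  P0 : Type u
  P1 : Type u
  P01 : Type u
  [acg0 : AddCommGroup P0]
  [acg1 : AddCommGroup P1]
  [acg01 : AddCommGroup P01]
  [mod0 : Module R P0]
  [mod1 : Module R P1]
  [mod01 : Module R P01]
  x0 : P0 →ₗ[R] P0
  y1 : P1 →ₗ[R] P1
  x01 : P01 ≃ₗ[R] P01
  i0 : P0 →ₗ[R] P01
  i1 : P1 →ₗ[R] P01
  i0_x : ∀ p, i0 (x0 p) = x01 (i0 p)
  i1_y : ∀ p, i1 (y1 p) = x01.symm (i1 p)
  /-- `P01 = P0[1/x]` -/
  surj0 : ∀ q : P01, ∃ (n : ℕ) (p : P0), (x01 ^ n) q = i0 p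
  /-- `P01 = P1[1/y]` -/
  surj1 : ∀ q : P01, ∃ (n : ℕ) (p : P1), (x01⁻¹ ^ n) q = i1 p
  /-- `P0` is finitely generated over `R[x]` -/
  fg0 : ∃ s : Finset P0, Submodule.span R {q | ∃ (n : ℕ), ∃ a ∈ s, q = (x0 ^ n) a} = ⊤
  /-- `P1` is finitely generated over `R[y]` -/
  fg1 : ∃ s : Finset P1, Submodule.span R {q | ∃ (n : ℕ), ∃ a ∈ s, q = (y1 ^ n) a} = ⊤

attribute [instance] P1Mod.acg0 P1Mod.acg1 P1Mod.acg01 P1Mod.mod0 P1Mod.mod1 P1Mod.mod01

namespace P1Mod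

variable {R : Type u} [CommRing R] (P : P1Mod R)

/-- the Čech differential `(p, q) ↦ p - q` -/
def d : (P.P0 × P.P1) →ₗ[R] P.P01 := P.i0.coprod (- P.i1)

@[simp] theorem d_apply (a : P.P0 × P.P1) : P.d a = P.i0 a.1 - P.i1 a.2 := by
  simp [d, sub_eq_add_neg]

/-- global sections -/
abbrev H0 : Submodule R (P.P0 × P.P1) := LinearMap.ker P.d

/-- first cohomology -/
abbrev H1 : Type u := P.P01 ⧸ LinearMap.range P.d

/-- the twist `P(m∞)`: on the chart at infinity the sections are `x ^ m • P1` -/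
def twist (m : ℤ) : P1Mod R where
  P0 := P.P0
  P1 := P.P1
  P01 := P.P01
  x0 := P.x0
  y1 := P.y1
  x01 := P.x01
  i0 := P.i0
  i1 := ((P.x01 ^ m : P.P01 ≃ₗ[R] P.P01) : P.P01 →ₗ[R] P.P01) ∘ₗ P.i1
  i0_x := P.i0_x
  i1_y := fun p => by
    have h : (P.x01 ^ m * P.x01⁻¹ : P.P01 ≃ₗ[R] P.P01) = P.x01⁻¹ * P.x01 ^ m :=
      ((Commute.refl P.x01).zpow_left m).inv_right
    have h2 := congrArg (fun e : P.P01 ≃ₗ[R] P.P01 => e (P.i1 p)) h
    simpa [P.i1_y] using h2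
  surj0 := P.surj0
  surj1 := fun q => by
    obtain ⟨n, p, hp⟩ := P.surj1 ((P.x01 ^ (-m) : P.P01 ≃ₗ[R] P.P01) q)
    refine ⟨n, p, ?_⟩
    have h : (P.x01⁻¹ ^ n : P.P01 ≃ₗ[R] P.P01) = P.x01 ^ m * (P.x01⁻¹ ^ n * P.x01 ^ (-m)) := by
      have hc : Commute (P.x01 ^ m) (P.x01⁻¹ ^ n) :=
        (((Commute.refl P.x01).zpow_left m).inv_right).pow_right n
      rw [← mul_assoc, hc.eq, mul_assoc, ← zpow_add, add_neg_cancel, zpow_zero, mul_one]
    have h2 := congrArg (fun e : P.P01 ≃ₗ[R] P.P01 => e q) h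
    simp only [LinearEquiv.mul_apply] at h2
    rw [h2, hp]
    rfl
  fg0 := P.fg0
  fg1 := P.fg1

/-- a morphism of `P1Mod`s over a ring homomorphism -/
structure Hom {R' : Type u} [CommRing R'] (φ : R →+* R') (P : P1Mod R) (P' : P1Mod R') where
  f0 : P.P0 →ₛₗ[φ] P'.P0
  f1 : P.P1 →ₛₗ[φ] P'.P1
  f01 : P.P01 →ₛₗ[φ] P'.P01
  f0_x : ∀ p, f0 (P.x0 p) = P'.x0 (f0 p)
  f1_y : ∀ p, f1 (P.y1 p) = P'.y1 (f1 p)
  f01_x : ∀ p, f01 (P.x01 p) = P'.x01 (f01 p)
  f_i0 : ∀ p, f01 (P.i0 p) = P'.i0 (f0 p)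
  f_i1 : ∀ p, f01 (P.i1 p) = P'.i1 (f1 p)

/-- the morphism exhibits `P'` as the base change of `P` -/
structure Hom.IsBC {R' : Type u} [CommRing R'] {φ : R →+* R'} {P : P1Mod R} {P' : P1Mod R'}
    (f : Hom φ P P') : Prop where
  bc0 : S26.IsBC φ f.f0
  bc1 : S26.IsBC φ f.f1
  bc01 : S26.IsBC φ f.f01

/-- a short exact sequence of `P1Mod`s (exact on each chart) -/
structure SES (P' P P'' : P1Mod R) where
  i : Hom (RingHom.id R) P' P
  π : Hom (RingHom.id R) P P''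
  inj0 : Function.Injective i.f0
  inj1 : Function.Injective i.f1
  inj01 : Function.Injective i.f01
  surj0 : Function.Surjective π.f0
  surj1 : Function.Surjective π.f1
  surj01 : Function.Surjective π.f01
  exact0 : Function.Exact i.f0 π.f0
  exact1 : Function.Exact i.f1 π.f1
  exact01 : Function.Exact i.f01 π.f01

/-- dimensions of the cohomology (junk `0` if infinite) -/
noncomputable def h0 : ℕ := Module.finrank R P.H0
noncomputable def h1 : ℕ := Module.finrank R P.H1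

/-- the Euler characteristic (meaningful over a field when `H0` is finite dimensional) -/
noncomputable def chi : ℤ := (P.h0 : ℤ) - P.h1

end P1Mod

end Fermat.Agent.S26
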