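/-
S26 / P1 / TC-4 : `H⁰` is finite dimensional for a torsion free module embedded in `k[x]ⁿ`.
-/
import Fermat.Agent.S26.P1.Defs

set_option autoImplicit false

open scoped TensorProduct

universe u

namespace Fermat.Agent.S26

namespace P1Mod

variable {R : Type u} [CommRing R]

theorem emb_i0_pow (P : P1Mod R) (m : ℕ) (p : P.P0) :
    P.i0 ((P.x0 ^ m) p) = (P.x01 ^ m) (P.i0 p) := by
  induction m with
  | zero => simp
  | succ m ih =>
    rw [pow_succ', Module.End.mul_apply, P.i0_x, ih, pow_succ', LinearEquiv.mul_apply]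

theorem emb_i1_pow (P : P1Mod R) (m : ℕ) (p : P.P1) :
    P.i1 ((P.y1 ^ m) p) = (P.x01⁻¹ ^ m) (P.i1 p) := by
  induction m with
  | zero => simp
  | succ m ih =>
    rw [pow_succ', Module.End.mul_apply, P.i1_y, ih, pow_succ', LinearEquiv.mul_apply]
    rfl

theorem emb_theta_pow {k : Type u} [Field k] (P : P1Mod k) (n : ℕ)
    (θ : P.P0 →ₗ[k] (Fin n → Polynomial k))
    (hθx : ∀ p i, θ (P.x0 p) i = Polynomial.X * θ p i) (m : ℕ) (p : P.P0) (i : Fin n) :
    θ ((P.x0 ^ m) p) i = Polynomial.X ^ m * θ p i := by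
  induction m with
  | zero => simp
  | succ m ih =>
    rw [pow_succ', Module.End.mul_apply, hθx, ih, pow_succ', mul_assoc]

/-- the elements of `P01` of "degree `≤ C`" -/
def embB {k : Type u} [Field k] (P : P1Mod k) (n : ℕ)
    (θ : P.P0 →ₗ[k] (Fin n → Polynomial k))
    (hθx : ∀ p i, θ (P.x0 p) i = Polynomial.X * θ p i) (C : ℕ) : Submodule k P.P01 where
  carrier := {q | ∃ (m : ℕ) (p : P.P0), (P.x01 ^ m) q = P.i0 p ∧
    ∀ i, (θ p i).natDegree ≤ m + C}
  zero_mem' := ⟨0, 0, by simp, fun i => by simp⟩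
  add_mem' := by
    rintro a b ⟨m₁, p₁, h₁, d₁⟩ ⟨m₂, p₂, h₂, d₂⟩
    refine ⟨m₁ + m₂, (P.x0 ^ m₂) p₁ + (P.x0 ^ m₁) p₂, ?_, fun i => ?_⟩
    · rw [map_add, map_add, emb_i0_pow, emb_i0_pow, ← h₁, ← h₂, ← LinearEquiv.mul_apply,
        ← LinearEquiv.mul_apply, ← pow_add, ← pow_add, add_comm m₂ m₁]
    · rw [map_add, Pi.add_apply, emb_theta_pow P n θ hθx, emb_theta_pow P n θ hθx]
      refine (Polynomial.natDegree_add_le _ _).trans (max_le ?_ ?_)
      · refine Polynomial.natDegree_mul_le.trans ?_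
        rw [Polynomial.natDegree_X_pow]
        have := d₁ i
        omega
      · refine Polynomial.natDegree_mul_le.trans ?_
        rw [Polynomial.natDegree_X_pow]
        have := d₂ i
        omega
  smul_mem' := by
    rintro c a ⟨m, p, h, d⟩
    refine ⟨m, c • p, by rw [map_smul, map_smul, h], fun i => ?_⟩
    rw [map_smul, Pi.smul_apply]
    exact (Polynomial.natDegree_smul_le c _).trans (d i)

theorem finite_H0_of_embedding {k : Type u} [Field k] (P : P1Mod k)
    (hi0 : Function.Injective P.i0) (hi1 : Function.Injective P.i1) (n : ℕ)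
    (θ : P.P0 →ₗ[k] (Fin n → Polynomial k)) (hθ : Function.Injective θ)
    (hθx : ∀ p i, θ (P.x0 p) i = Polynomial.X * θ p i) : Module.Finite k P.H0 := by
  classical
  obtain ⟨t, ht⟩ := P.fg1
  -- a bound for the generators
  have hgen : ∃ C : ℕ, ∀ a ∈ t, P.i1 a ∈ embB P n θ hθx C := by
    have h1 : ∀ a : P.P1, ∃ C : ℕ, P.i1 a ∈ embB P n θ hθx C := by
      intro a
      obtain ⟨m, p, hp⟩ := P.surj0 (P.i1 a)
      refine ⟨Finset.univ.sup fun i => (θ p i).natDegree, m, p, hp, fun i => ?_⟩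
      exact (Finset.le_sup (f := fun i => (θ p i).natDegree) (Finset.mem_univ i)).trans
        (Nat.le_add_left _ _)
    choose C hC using h1
    refine ⟨t.sup C, fun a ha => ?_⟩
    obtain ⟨m, p, hp, hd⟩ := hC a
    exact ⟨m, p, hp, fun i => (hd i).trans (Nat.add_le_add_left (Finset.le_sup ha) m)⟩
  obtain ⟨C, hC⟩ := hgen
  -- stability under `x⁻¹`
  have hinv : ∀ q ∈ embB P n θ hθx C, ∀ m : ℕ, (P.x01⁻¹ ^ m) q ∈ embB P n θ hθx C := by
    intro q hq m
    induction m with
    | zero => simpa using hq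
    | succ m ih =>
      obtain ⟨m', p, hp, hd⟩ := ih
      refine ⟨m' + 1, p, ?_, fun i => (hd i).trans (by omega)⟩
      rw [← hp, pow_succ' P.x01⁻¹, pow_succ P.x01, LinearEquiv.mul_apply, LinearEquiv.mul_apply,
        ← LinearEquiv.mul_apply P.x01 P.x01⁻¹, mul_inv_cancel]
      rfl
  have hall : ∀ q : P.P1, P.i1 q ∈ embB P n θ hθx C := by
    intro q
    have hq : q ∈ Submodule.span k {q | ∃ (n : ℕ), ∃ a ∈ t, q = (P.y1 ^ n) a} := by
      rw [ht]; trivial
    have hle : Submodule.span k {q | ∃ (n : ℕ), ∃ a ∈ t, q = (P.y1 ^ n) a} ≤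
        (embB P n θ hθx C).comap P.i1 := by
      rw [Submodule.span_le]
      rintro _ ⟨m, a, ha, rfl⟩
      show P.i1 ((P.y1 ^ m) a) ∈ embB P n θ hθx C
      rw [emb_i1_pow]
      exact hinv _ (hC a ha) m
    exact hle hq
  -- the degree bound on `H0`
  have hdeg : ∀ z : P.H0, ∀ i, θ z.1.1 i ∈ Polynomial.degreeLT k (C + 1) := by
    intro z i
    have hz : P.i0 z.1.1 = P.i1 z.1.2 := by
      have := z.2
      rw [LinearMap.mem_ker, d_apply, sub_eq_zero] at this
      exact this
    obtain ⟨m, p, hp, hd⟩ := hall z.1.2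
    rw [← hz, ← emb_i0_pow] at hp
    have hp' := hi0 hp
    have h2 := hd i
    rw [← hp', emb_theta_pow P n θ hθx] at h2
    rw [Polynomial.mem_degreeLT]
    by_cases h0 : θ z.1.1 i = 0
    · rw [h0, Polynomial.degree_zero]; exact WithBot.bot_lt_coe _
    · rw [Polynomial.natDegree_mul (pow_ne_zero _ Polynomial.X_ne_zero) h0,
        Polynomial.natDegree_X_pow] at h2
      rw [Polynomial.degree_eq_natDegree h0]
      exact_mod_cast (by omega : (θ z.1.1 i).natDegree < C + 1)
  let F : P.H0 →ₗ[k] (Fin n → Polynomial.degreeLT k (C + 1)) :=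
    LinearMap.pi fun i =>
      ((LinearMap.proj i ∘ₗ θ ∘ₗ LinearMap.fst k P.P0 P.P1 ∘ₗ P.H0.subtype).codRestrict
        (Polynomial.degreeLT k (C + 1)) fun z => hdeg z i)
  have hF : Function.Injective F := by
    rw [← LinearMap.ker_eq_bot, LinearMap.ker_eq_bot']
    intro z hz
    have h1 : θ z.1.1 = 0 := by
      funext i
      exact congrArg Subtype.val (congrFun hz i)
    have h2 : z.1.1 = 0 := hθ (by rw [h1, map_zero])
    have h3 : P.i0 z.1.1 = P.i1 z.1.2 := by
      have := z.2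
      rw [LinearMap.mem_ker, d_apply, sub_eq_zero] at this
      exact this
    have h4 : z.1.2 = 0 := hi1 (by rw [← h3, h2, map_zero, map_zero])
    exact Subtype.ext (Prod.ext h2 h4)
  have : Module.Finite k (Polynomial.degreeLT k (C + 1)) :=
    Module.Finite.equiv (Polynomial.degreeLTEquiv k (C + 1)).symm
  exact Module.Finite.of_injective F hF

end P1Mod

end Fermat.Agent.S26
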