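/-
S26 / P1 / TC-1 : `H¹` of a `P1Mod` is a finite `R`-module; it vanishes after a large twist.
-/
import Fermat.Agent.S26.P1.Defs

set_option autoImplicit false

open scoped TensorProduct

universe u

namespace Fermat.Agent.S26

namespace P1Mod

variable {R : Type u} [CommRing R]

theorem finiteAux_i0_pow (P : P1Mod R) (n : ℕ) (p : P.P0) :
    P.i0 ((P.x0 ^ n) p) = (P.x01 ^ (n : ℤ)) (P.i0 p) := by
  induction n with
  | zero => simp
  | succ n ih =>
    rw [pow_succ', Module.End.mul_apply, P.i0_x, ih]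
    push_cast
    rw [add_comm, zpow_add, zpow_one]
    rfl

theorem finiteAux_i1_pow (P : P1Mod R) (n : ℕ) (p : P.P1) :
    P.i1 ((P.y1 ^ n) p) = (P.x01 ^ (-(n : ℤ))) (P.i1 p) := by
  induction n with
  | zero => simp
  | succ n ih =>
    rw [pow_succ', Module.End.mul_apply, P.i1_y, ih]
    push_cast
    rw [neg_add, add_comm, zpow_add, zpow_neg_one]
    rfl

theorem finiteAux_zpow_zpow (P : P1Mod R) (i j : ℤ) (q : P.P01) :
    (P.x01 ^ i) ((P.x01 ^ j) q) = (P.x01 ^ (i + j)) q := by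
  rw [zpow_add]
  rfl

/-- the key structural statement: `P01` is spanned by the `x ^ e • i0 a`, `a ∈ s`, and these lie in
`i1 P1` for `e ≤ - N`. -/
theorem finiteAux_key (P : P1Mod R) : ∃ (N : ℕ) (s : Finset P.P0),
    Submodule.span R {z : P.P01 | ∃ e : ℤ, ∃ a ∈ s, z = (P.x01 ^ e) (P.i0 a)} = ⊤ ∧
    ∀ a ∈ s, ∀ e : ℤ, e ≤ -(N : ℤ) → ∃ b : P.P1, (P.x01 ^ e) (P.i0 a) = P.i1 b := by
  obtain ⟨s, hs⟩ := P.fg0
  choose nn pp hpp using fun a : P.P0 => P.surj1 (P.i0 a)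
  refine ⟨s.sup nn, s, ?_, ?_⟩
  · set W := Submodule.span R {z : P.P01 | ∃ e : ℤ, ∃ a ∈ s, z = (P.x01 ^ e) (P.i0 a)} with hW
    have h1 : ∀ j : ℤ, W ≤ W.comap ((P.x01 ^ j : P.P01 ≃ₗ[R] P.P01) : P.P01 →ₗ[R] P.P01) := by
      intro j
      rw [hW, Submodule.span_le]
      rintro _ ⟨e, a, ha, rfl⟩
      refine Submodule.subset_span ⟨j + e, a, ha, ?_⟩
      exact finiteAux_zpow_zpow P j e _
    have h2 : (⊤ : Submodule R P.P0) ≤ W.comap P.i0 := by
      rw [← hs, Submodule.span_le]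
      rintro _ ⟨n, a, ha, rfl⟩
      exact Submodule.subset_span ⟨n, a, ha, finiteAux_i0_pow P n a⟩
    rw [eq_top_iff]
    intro q _
    obtain ⟨n, p, hp⟩ := P.surj0 q
    have h3 : P.i0 p ∈ W := h2 Submodule.mem_top
    have h4 := h1 (-(n : ℤ)) h3
    have h5 : (P.x01 ^ (-(n : ℤ))) (P.i0 p) = q := by
      rw [← hp, ← zpow_natCast, finiteAux_zpow_zpow, neg_add_cancel, zpow_zero]
      rfl
    rw [← h5]
    exact h4
  · intro a ha e he
    have hle : nn a ≤ s.sup nn := Finset.le_sup ha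
    have hle' : (nn a : ℤ) ≤ ((s.sup nn : ℕ) : ℤ) := by exact_mod_cast hle
    obtain ⟨k, hk⟩ : ∃ k : ℕ, e + nn a = -(k : ℤ) :=
      ⟨(-(e + nn a)).toNat, by rw [Int.toNat_of_nonneg (by omega)]; ring⟩
    refine ⟨(P.y1 ^ k) (pp a), ?_⟩
    rw [finiteAux_i1_pow, ← hpp a, inv_pow, ← zpow_natCast, ← zpow_neg, finiteAux_zpow_zpow, ← hk]
    congr 2
    ring

theorem finiteAux_i0_mem_range_d (P : P1Mod R) (a : P.P0) : P.i0 a ∈ LinearMap.range P.d :=
  ⟨(a, 0), by simp⟩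

theorem finiteAux_i1_mem_range_d (P : P1Mod R) (b : P.P1) : P.i1 b ∈ LinearMap.range P.d :=
  ⟨(0, -b), by simp⟩

theorem finite_H1 (P : P1Mod R) : Module.Finite R P.H1 := by
  classical
  obtain ⟨N, s, hW, hN⟩ := finiteAux_key P
  let F : Finset P.P01 :=
    (Finset.Ioo (-(N : ℤ)) 0 ×ˢ s).image (fun ea => (P.x01 ^ ea.1) (P.i0 ea.2))
  have htop : (⊤ : Submodule R P.P01) ≤ LinearMap.range P.d ⊔ Submodule.span R (F : Set P.P01) := by
    rw [← hW, Submodule.span_le]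
    rintro _ ⟨e, a, ha, rfl⟩
    rcases le_or_gt 0 e with h0 | h0
    · apply (le_sup_left : LinearMap.range P.d ≤ _)
      obtain ⟨k, rfl⟩ := Int.eq_ofNat_of_zero_le h0
      rw [← finiteAux_i0_pow]
      exact finiteAux_i0_mem_range_d P _
    · rcases le_or_gt e (-(N : ℤ)) with h1 | h1
      · apply (le_sup_left : LinearMap.range P.d ≤ _)
        obtain ⟨b, hb⟩ := hN a ha e h1
        rw [hb]
        exact finiteAux_i1_mem_range_d P _
      · apply (le_sup_right : Submodule.span R (F : Set P.P01) ≤ _)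
        apply Submodule.subset_span
        rw [Finset.mem_coe, Finset.mem_image]
        exact ⟨(e, a), Finset.mem_product.2 ⟨Finset.mem_Ioo.2 ⟨h1, h0⟩, ha⟩, rfl⟩
  rw [Module.finite_def]
  have h1 : (Submodule.span R (F : Set P.P01)).map (LinearMap.range P.d).mkQ = ⊤ := by
    have h2 := congrArg (Submodule.map (LinearMap.range P.d).mkQ) (top_le_iff.1 htop)
    rw [Submodule.map_sup, Submodule.mkQ_map_self, bot_sup_eq, Submodule.map_top,
      Submodule.range_mkQ] at h2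
    exact h2
  rw [← h1]
  exact (Submodule.fg_span F.finite_toSet).map _

theorem finiteAux_twist_d_apply (P : P1Mod R) (m : ℤ) (a : P.P0) (b : P.P1) :
    (P.twist m).d (a, b) = P.i0 a - (P.x01 ^ m) (P.i1 b) :=
  (P.twist m).d_apply (a, b)

theorem exists_twist_H1_eq_zero (P : P1Mod R) :
    ∃ m₀ : ℤ, ∀ m : ℤ, m₀ ≤ m → Subsingleton (P.twist m).H1 := by
  obtain ⟨N, s, hW, hN⟩ := finiteAux_key P
  refine ⟨N, fun m hm => Submodule.Quotient.subsingleton_iff.2 ?_⟩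
  have h : (⊤ : Submodule R P.P01) ≤ LinearMap.range
      (P.i0.coprod (-(((P.x01 ^ m : P.P01 ≃ₗ[R] P.P01) : P.P01 →ₗ[R] P.P01) ∘ₗ P.i1))) := by
    rw [← hW, Submodule.span_le]
    rintro _ ⟨e, a, ha, rfl⟩
    rcases le_or_gt 0 e with h0 | h0
    · obtain ⟨k, rfl⟩ := Int.eq_ofNat_of_zero_le h0
      refine ⟨((P.x0 ^ k) a, 0), ?_⟩
      rw [LinearMap.coprod_apply, finiteAux_i0_pow]
      simp
    · obtain ⟨b, hb⟩ := hN a ha (e - m) (by omega)
      refine ⟨(0, -b), ?_⟩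
      rw [LinearMap.coprod_apply, map_neg, map_zero, zero_add, LinearMap.neg_apply, neg_neg,
        LinearMap.comp_apply, ← hb]
      change (P.x01 ^ m) ((P.x01 ^ (e - m)) (P.i0 a)) = _
      rw [finiteAux_zpow_zpow]
      simp
  rw [eq_top_iff]
  intro q _
  obtain ⟨ab, hab⟩ := h (Submodule.mem_top (x := (q : P.P01)))
  exact ⟨ab, hab⟩

end P1Mod

end Fermat.Agent.S26

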