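/-
S26 / P1 / TC-3 : the six-term exact sequence of a short exact sequence of `P1Mod`s; additivity of
the Euler characteristic over a field.
-/
import Fermat.Agent.S26.P1.Finite

set_option autoImplicit false

open scoped TensorProduct

universe u

namespace Fermat.Agent.S26

namespace P1Mod

variable {R : Type u} [CommRing R]

/-! ### abstract linear algebra -/

section abstract

/-- the middle term of an exact sequence of vector spaces with finite dimensional outer terms. -/
theorem les_finite_mid {k V W X : Type*} [Field k] [AddCommGroup V] [Module k V] [AddCommGroup W]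
    [Module k W] [AddCommGroup X] [Module k X] (f : V →ₗ[k] W) (g : W →ₗ[k] X)
    (h : Function.Exact f g) [Module.Finite k V] [Module.Finite k X] : Module.Finite k W := by
  have h1 : Module.Finite k (LinearMap.ker g) := by
    rw [LinearMap.exact_iff.mp h]
    infer_instance
  have h3 : Module.Finite k (W ⧸ LinearMap.ker g) := Module.Finite.equiv g.quotKerEquivRange.symm
  exact Module.Finite.of_submodule_quotient (LinearMap.ker g)

theorem les_finrank_mid {k V W X : Type*} [Field k] [AddCommGroup V] [Module k V] [AddCommGroup W]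
    [Module k W] [AddCommGroup X] [Module k X] (f : V →ₗ[k] W) (g : W →ₗ[k] X)
    (h : Function.Exact f g) [Module.Finite k W] :
    Module.finrank k W = Module.finrank k (LinearMap.range f) +
      Module.finrank k (LinearMap.range g) := by
  have h1 := LinearMap.finrank_range_add_finrank_ker g
  rw [LinearMap.exact_iff.mp h] at h1
  omega

/-- the snake lemma for two-term complexes. -/
theorem les_snake {A' A A'' B' B B'' : Type*} [AddCommGroup A'] [Module R A'] [AddCommGroup A]
    [Module R A] [AddCommGroup A''] [Module R A''] [AddCommGroup B'] [Module R B'] [AddCommGroup B]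
    [Module R B] [AddCommGroup B''] [Module R B'']
    (d' : A' →ₗ[R] B') (d : A →ₗ[R] B) (d'' : A'' →ₗ[R] B'')
    (iA : A' →ₗ[R] A) (πA : A →ₗ[R] A'') (iB : B' →ₗ[R] B) (πB : B →ₗ[R] B'')
    (hA : Function.Exact iA πA) (hB : Function.Exact iB πB)
    (hiA : Function.Injective iA) (hπA : Function.Surjective πA)
    (hiB : Function.Injective iB) (hπB : Function.Surjective πB)
    (h₁ : iB.comp d' = d.comp iA) (h₂ : πB.comp d = d''.comp πA) :
    ∃ (a : LinearMap.ker d' →ₗ[R] LinearMap.ker d) (b : LinearMap.ker d →ₗ[R] LinearMap.ker d'')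
      (δ : LinearMap.ker d'' →ₗ[R] B' ⧸ LinearMap.range d')
      (c : (B' ⧸ LinearMap.range d') →ₗ[R] B ⧸ LinearMap.range d)
      (e : (B ⧸ LinearMap.range d) →ₗ[R] B'' ⧸ LinearMap.range d''),
      Function.Injective a ∧ Function.Exact a b ∧ Function.Exact b δ ∧ Function.Exact δ c ∧
        Function.Exact c e ∧ Function.Surjective e := by
  have e₁ : ∀ x, iB (d' x) = d (iA x) := fun x => LinearMap.congr_fun h₁ x
  have e₂ : ∀ x, πB (d x) = d'' (πA x) := fun x => LinearMap.congr_fun h₂ x
  let a : LinearMap.ker d' →ₗ[R] LinearMap.ker d := iA.restrict fun x hx => by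
    rw [LinearMap.mem_ker] at hx ⊢
    rw [← e₁, hx, map_zero]
  let b : LinearMap.ker d →ₗ[R] LinearMap.ker d'' := πA.restrict fun x hx => by
    rw [LinearMap.mem_ker] at hx ⊢
    rw [← e₂, hx, map_zero]
  let c : (B' ⧸ LinearMap.range d') →ₗ[R] B ⧸ LinearMap.range d :=
    Submodule.mapQ _ _ iB (by
      rintro _ ⟨x, rfl⟩
      exact ⟨iA x, (e₁ x).symm⟩)
  let e : (B ⧸ LinearMap.range d) →ₗ[R] B'' ⧸ LinearMap.range d'' :=
    Submodule.mapQ _ _ πB (by
      rintro _ ⟨x, rfl⟩
      exact ⟨πA x, (e₂ x).symm⟩)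
  refine ⟨a, b, SnakeLemma.δ' d' d d'' iA πA hA iB πB hB h₁ h₂ (LinearMap.ker d'').subtype
    (LinearMap.exact_subtype_ker_map d'') (LinearMap.range d').mkQ (LinearMap.exact_map_mkQ_range d')
    hπA hiB, c, e, ?_, ?_, ?_, ?_, ?_, ?_⟩
  · intro x y hxy
    exact Subtype.ext (hiA (congrArg Subtype.val hxy))
  · intro y
    constructor
    · intro hy
      have hy' : πA (y : A) = 0 := congrArg Subtype.val hy
      obtain ⟨x, hx⟩ := (hA _).mp hy'
      have hx' : x ∈ LinearMap.ker d' := by
        rw [LinearMap.mem_ker]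
        apply hiB
        rw [e₁, hx, map_zero]
        exact y.2
      exact ⟨⟨x, hx'⟩, Subtype.ext hx⟩
    · rintro ⟨x, rfl⟩
      exact Subtype.ext ((hA _).mpr ⟨x, rfl⟩)
  · exact SnakeLemma.exact_δ'_right d' d d'' iA πA hA iB πB hB h₁ h₂ (LinearMap.ker d).subtype
      (LinearMap.exact_subtype_ker_map d) (LinearMap.ker d'').subtype
      (LinearMap.exact_subtype_ker_map d'') (LinearMap.range d').mkQ
      (LinearMap.exact_map_mkQ_range d') hπA hiB b rfl Subtype.val_injective
  · exact SnakeLemma.exact_δ'_left d' d d'' iA πA hA iB πB hB h₁ h₂ (LinearMap.ker d'').subtype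
      (LinearMap.exact_subtype_ker_map d'') (LinearMap.range d').mkQ
      (LinearMap.exact_map_mkQ_range d') (LinearMap.range d).mkQ
      (LinearMap.exact_map_mkQ_range d) hπA hiB c rfl (Submodule.mkQ_surjective _)
  · intro y
    obtain ⟨y, rfl⟩ := Submodule.Quotient.mk_surjective _ y
    constructor
    · intro hy
      have hy' : πB y ∈ LinearMap.range d'' := (Submodule.Quotient.mk_eq_zero _).mp hy
      obtain ⟨x'', hx''⟩ := hy'
      obtain ⟨x, rfl⟩ := hπA x''
      have h0 : πB (y - d x) = 0 := by rw [map_sub, e₂, hx'', sub_self]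
      obtain ⟨z, hz⟩ := (hB _).mp h0
      refine ⟨Submodule.Quotient.mk z, ?_⟩
      change Submodule.Quotient.mk (iB z) = Submodule.Quotient.mk y
      rw [hz, Submodule.Quotient.mk_sub, sub_eq_self, Submodule.Quotient.mk_eq_zero]
      exact ⟨x, rfl⟩
    · rintro ⟨z, hz⟩
      obtain ⟨z, rfl⟩ := Submodule.Quotient.mk_surjective _ z
      rw [← hz]
      change Submodule.Quotient.mk (πB (iB z)) = 0
      rw [(hB _).mpr ⟨z, rfl⟩, Submodule.Quotient.mk_zero]
  · intro y
    obtain ⟨y, rfl⟩ := Submodule.Quotient.mk_surjective _ y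
    obtain ⟨x, rfl⟩ := hπB y
    exact ⟨Submodule.Quotient.mk x, rfl⟩

end abstract

/-! ### the six-term exact sequence -/

/-- `0 → H⁰(P') → H⁰(P) → H⁰(P'') → H¹(P') → H¹(P) → H¹(P'') → 0`. -/
theorem SES.les {P' P P'' : P1Mod R} (S : SES P' P P'') :
    ∃ (a : P'.H0 →ₗ[R] P.H0) (b : P.H0 →ₗ[R] P''.H0) (δ : P''.H0 →ₗ[R] P'.H1)
      (c : P'.H1 →ₗ[R] P.H1) (e : P.H1 →ₗ[R] P''.H1),
      Function.Injective a ∧ Function.Exact a b ∧ Function.Exact b δ ∧ Function.Exact δ c ∧
        Function.Exact c e ∧ Function.Surjective e := by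
  refine les_snake P'.d P.d P''.d (LinearMap.prodMap S.i.f0 S.i.f1)
    (LinearMap.prodMap S.π.f0 S.π.f1) S.i.f01 S.π.f01 ?_ S.exact01 ?_ ?_ S.inj01 S.surj01 ?_ ?_
  · rintro ⟨y0, y1⟩
    constructor
    · intro h
      have h0 : S.π.f0 y0 = 0 := congrArg Prod.fst h
      have h1 : S.π.f1 y1 = 0 := congrArg Prod.snd h
      obtain ⟨x0, hx0⟩ := (S.exact0 _).mp h0
      obtain ⟨x1, hx1⟩ := (S.exact1 _).mp h1
      exact ⟨(x0, x1), Prod.ext hx0 hx1⟩
    · rintro ⟨⟨x0, x1⟩, hx⟩
      have hx0 : S.i.f0 x0 = y0 := congrArg Prod.fst hx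
      have hx1 : S.i.f1 x1 = y1 := congrArg Prod.snd hx
      exact Prod.ext ((S.exact0 _).mpr ⟨x0, hx0⟩) ((S.exact1 _).mpr ⟨x1, hx1⟩)
  · exact Function.Injective.prodMap S.inj0 S.inj1
  · exact Function.Surjective.prodMap S.surj0 S.surj1
  · ext x
    · simp [S.i.f_i0]
    · simp [S.i.f_i1]
  · ext x
    · simp [S.π.f_i0]
    · simp [S.π.f_i1]

theorem SES.finite_H0_mid {k : Type u} [Field k] {P' P P'' : P1Mod k} (S : SES P' P P'')
    (h' : Module.Finite k P'.H0) (h'' : Module.Finite k P''.H0) : Module.Finite k P.H0 := by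
  obtain ⟨a, b, δ, c, e, ha, hab, hbδ, hδc, hce, he⟩ := S.les
  exact les_finite_mid a b hab

theorem SES.finite_H0_right {k : Type u} [Field k] {P' P P'' : P1Mod k} (S : SES P' P P'')
    (h : Module.Finite k P.H0) : Module.Finite k P''.H0 := by
  obtain ⟨a, b, δ, c, e, ha, hab, hbδ, hδc, hce, he⟩ := S.les
  have := P'.finite_H1
  exact les_finite_mid b δ hbδ

theorem SES.finite_H0_left {k : Type u} [Field k] {P' P P'' : P1Mod k} (S : SES P' P P'')
    (h : Module.Finite k P.H0) : Module.Finite k P'.H0 := by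
  obtain ⟨a, b, δ, c, e, ha, hab, hbδ, hδc, hce, he⟩ := S.les
  exact Module.Finite.of_injective a ha

/-- all the numerical information contained in the six-term sequence. -/
theorem SES.les_ranks {k : Type u} [Field k] {P' P P'' : P1Mod k} (S : SES P' P P'')
    (h : Module.Finite k P.H0) : ∃ ra rb rδ rc re : ℕ, P'.h0 = ra ∧ P.h0 = ra + rb ∧
      P''.h0 = rb + rδ ∧ P'.h1 = rδ + rc ∧ P.h1 = rc + re ∧ P''.h1 = re := by
  have f1 := S.finite_H0_left h
  have f3 := S.finite_H0_right h
  have f4 := P'.finite_H1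
  have f5 := P.finite_H1
  have f6 := P''.finite_H1
  obtain ⟨a, b, δ, c, e, ha, hab, hbδ, hδc, hce, he⟩ := S.les
  refine ⟨Module.finrank k (LinearMap.range a), Module.finrank k (LinearMap.range b),
    Module.finrank k (LinearMap.range δ), Module.finrank k (LinearMap.range c),
    Module.finrank k (LinearMap.range e), ?_, les_finrank_mid a b hab, les_finrank_mid b δ hbδ,
    les_finrank_mid δ c hδc, les_finrank_mid c e hce, ?_⟩
  · exact (LinearMap.finrank_range_of_inj ha).symm
  · rw [LinearMap.range_eq_top.mpr he, finrank_top]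
    rfl

theorem SES.chi_add {k : Type u} [Field k] {P' P P'' : P1Mod k} (S : SES P' P P'')
    (h : Module.Finite k P.H0) : P.chi = P'.chi + P''.chi := by
  obtain ⟨ra, rb, rδ, rc, re, h1, h2, h3, h4, h5, h6⟩ := S.les_ranks h
  simp only [chi, h1, h2, h3, h4, h5, h6]
  push_cast
  ring

theorem SES.h0_le {k : Type u} [Field k] {P' P P'' : P1Mod k} (S : SES P' P P'')
    (h : Module.Finite k P.H0) : P'.h0 ≤ P.h0 ∧ P.h0 ≤ P'.h0 + P''.h0 := by
  obtain ⟨ra, rb, rδ, rc, re, h1, h2, h3, h4, h5, h6⟩ := S.les_ranks h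
  omega

theorem SES.h1_le {k : Type u} [Field k] {P' P P'' : P1Mod k} (S : SES P' P P'') :
    P''.h1 ≤ P.h1 ∧ P.h1 ≤ P'.h1 + P''.h1 := by
  have f4 := P'.finite_H1
  have f5 := P.finite_H1
  have f6 := P''.finite_H1
  obtain ⟨a, b, δ, c, e, ha, hab, hbδ, hδc, hce, he⟩ := S.les
  have h5 : P.h1 = _ := les_finrank_mid c e hce
  have h6 : Module.finrank k (LinearMap.range e) = P''.h1 := by
    rw [LinearMap.range_eq_top.mpr he, finrank_top]
    rfl
  have h4 : Module.finrank k (LinearMap.range c) ≤ P'.h1 := LinearMap.finrank_range_le c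
  omega

end P1Mod

end Fermat.Agent.S26
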