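/-
S26 / P1 / TC-6 : the Euler characteristic of a finite dimensional (torsion) `P1Mod`.
-/
import Fermat.Agent.S26.P1.Defs

set_option autoImplicit false

open scoped TensorProduct

universe u

namespace Fermat.Agent.S26

namespace P1Mod

variable {R : Type u} [CommRing R]

/-- abstract form: if `V = V₀[1/e]` with `V₀` finite dimensional then `V₀ → V` is onto. -/
theorem torsion_surjective_aux {k : Type u} [Field k] {V₀ V : Type u} [AddCommGroup V₀]
    [Module k V₀] [AddCommGroup V] [Module k V] [Module.Finite k V₀] (e : V ≃ₗ[k] V)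
    (i : V₀ →ₗ[k] V) (x : V₀ →ₗ[k] V₀) (h : ∀ p, i (x p) = e (i p))
    (hs : ∀ q : V, ∃ (n : ℕ) (p : V₀), (e ^ n) q = i p) : Function.Surjective i := by
  set W : Submodule k V := LinearMap.range i with hW
  have hle : W.map (e : V →ₗ[k] V) ≤ W := by
    rintro _ ⟨_, ⟨p, rfl⟩, rfl⟩
    exact ⟨x p, h p⟩
  have heq : W.map (e : V →ₗ[k] V) = W :=
    Submodule.eq_of_le_of_finrank_eq hle (LinearEquiv.finrank_map_eq e W)
  have key : ∀ (n : ℕ) (q : V), (e ^ n) q ∈ W → q ∈ W := by
    intro n
    induction n with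
    | zero => intro q hq; simpa using hq
    | succ n ih =>
      intro q hq
      apply ih
      rw [pow_succ', LinearEquiv.mul_apply, ← heq] at hq
      obtain ⟨v, hv, hve⟩ := hq
      have : v = (e ^ n) q := e.injective hve
      rwa [← this]
  intro q
  obtain ⟨n, p, hp⟩ := hs q
  exact key n q ⟨p, hp.symm⟩

theorem finite_P01_of_finite {k : Type u} [Field k] (P : P1Mod k) [Module.Finite k P.P0] :
    Module.Finite k P.P01 ∧ Function.Surjective P.i0 := by
  have hs : Function.Surjective P.i0 :=
    torsion_surjective_aux P.x01 P.i0 P.x0 P.i0_x P.surj0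
  exact ⟨Module.Finite.of_surjective P.i0 hs, hs⟩

theorem torsion_surjective_i1 {k : Type u} [Field k] (P : P1Mod k) [Module.Finite k P.P1] :
    Function.Surjective P.i1 :=
  torsion_surjective_aux P.x01⁻¹ P.i1 P.y1 P.i1_y P.surj1

theorem chi_of_finite {k : Type u} [Field k] (P : P1Mod k) [Module.Finite k P.P0]
    [Module.Finite k P.P1] :
    P.chi = (Module.finrank k P.P0 : ℤ) + Module.finrank k P.P1 - Module.finrank k P.P01 := by
  obtain ⟨hfin, hs⟩ := finite_P01_of_finite P
  have hd : LinearMap.range P.d = ⊤ := by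
    rw [LinearMap.range_eq_top]
    intro q
    obtain ⟨p, rfl⟩ := hs q
    exact ⟨(p, 0), by simp⟩
  have h1 : P.h1 = 0 := by
    unfold h1 H1
    rw [hd]
    exact Module.finrank_zero_of_subsingleton
  have h2 := LinearMap.finrank_range_add_finrank_ker P.d
  rw [hd, finrank_top, Module.finrank_prod] at h2
  have h0 : P.h0 = Module.finrank k (LinearMap.ker P.d) := rfl
  unfold chi
  rw [h1, h0]
  push_cast
  omega

theorem chi_nonneg_of_finite {k : Type u} [Field k] (P : P1Mod k) [Module.Finite k P.P0]
    [Module.Finite k P.P1] :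
    (Module.finrank k P.P0 : ℤ) ≤ P.chi ∧ (Module.finrank k P.P1 : ℤ) ≤ P.chi := by
  obtain ⟨hfin, hs⟩ := finite_P01_of_finite P
  have h0 : Module.finrank k P.P01 ≤ Module.finrank k P.P0 :=
    LinearMap.finrank_le_finrank_of_surjective (f := P.i0) hs
  have h1 : Module.finrank k P.P01 ≤ Module.finrank k P.P1 :=
    LinearMap.finrank_le_finrank_of_surjective (f := P.i1) (torsion_surjective_i1 P)
  rw [chi_of_finite]
  constructor <;> omega

end P1Mod

end Fermat.Agent.S26
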