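/-
S26 / P1 / Twist (package TC-5) : `χ(P(m)) = χ(P) + m r`, `r = dim P1 / y P1`.
-/
import Fermat.Agent.S26.P1.Defs
import Fermat.Agent.S26.P1.Torsion
import Fermat.Agent.S26.P1.Les

set_option autoImplicit false

open scoped TensorProduct

universe u

namespace Fermat.Agent.S26

namespace P1Mod

variable {R : Type u} [CommRing R]

theorem finite_quot_y1 (P : P1Mod R) : Module.Finite R (P.P1 ⧸ LinearMap.range P.y1) := by
  classical
  obtain ⟨s, hs⟩ := P.fg1
  set N := LinearMap.range P.y1 with hN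
  refine ⟨⟨s.image N.mkQ, ?_⟩⟩
  have h1 : Submodule.map N.mkQ ⊤ = ⊤ := by rw [Submodule.map_top, Submodule.range_mkQ]
  rw [eq_top_iff, ← h1, ← hs, Submodule.map_span, Submodule.span_le]
  rintro _ ⟨_, ⟨n, a, ha, rfl⟩, rfl⟩
  rcases n with _ | n
  · apply Submodule.subset_span
    rw [Finset.coe_image]
    exact ⟨a, ha, by simp⟩
  · have : N.mkQ ((P.y1 ^ (n + 1)) a) = 0 := by
      rw [Submodule.mkQ_apply, Submodule.Quotient.mk_eq_zero, pow_succ', Module.End.mul_apply]
      exact LinearMap.mem_range_self _ _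
    rw [this]
    exact Submodule.zero_mem _

/-- the skyscraper `P1 / y P1` at infinity -/
noncomputable def sky (P : P1Mod R) : P1Mod R where
  P0 := PUnit.{u + 1}
  P1 := P.P1 ⧸ LinearMap.range P.y1
  P01 := PUnit.{u + 1}
  x0 := 0
  y1 := 0
  x01 := LinearEquiv.refl R _
  i0 := 0
  i1 := 0
  i0_x := fun _ => rfl
  i1_y := fun _ => rfl
  surj0 := fun _ => ⟨0, 0, rfl⟩
  surj1 := fun _ => ⟨0, 0, rfl⟩
  fg0 := ⟨∅, Subsingleton.elim _ _⟩
  fg1 := by
    obtain ⟨⟨s, hs⟩⟩ := P.finite_quot_y1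
    refine ⟨s, ?_⟩
    rw [eq_top_iff, ← hs]
    refine Submodule.span_mono fun a ha => ⟨0, a, ha, by simp⟩

/-- `P(m) → P(m+1)` -/
def twistIncl (P : P1Mod R) (m : ℤ) : Hom (RingHom.id R) (P.twist m) (P.twist (m + 1)) where
  f0 := (LinearMap.id : P.P0 →ₗ[R] P.P0)
  f1 := P.y1
  f01 := (LinearMap.id : P.P01 →ₗ[R] P.P01)
  f0_x := fun _ => rfl
  f1_y := fun _ => rfl
  f01_x := fun _ => rfl
  f_i0 := fun _ => rfl
  f_i1 := fun (p : P.P1) => by
    show (P.x01 ^ m : P.P01 ≃ₗ[R] P.P01) (P.i1 p) =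
      (P.x01 ^ (m + 1) : P.P01 ≃ₗ[R] P.P01) (P.i1 (P.y1 p))
    rw [P.i1_y, zpow_add_one, LinearEquiv.mul_apply, LinearEquiv.apply_symm_apply]

/-- `P(m+1) → Sky` -/
noncomputable def twistProj (P : P1Mod R) (m : ℤ) :
    Hom (RingHom.id R) (P.twist (m + 1)) P.sky where
  f0 := (0 : P.P0 →ₗ[R] PUnit.{u + 1})
  f1 := (LinearMap.range P.y1).mkQ
  f01 := (0 : P.P01 →ₗ[R] PUnit.{u + 1})
  f0_x := fun _ => rfl
  f1_y := fun (p : P.P1) => by
    show (LinearMap.range P.y1).mkQ (P.y1 p) = 0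
    rw [Submodule.mkQ_apply, Submodule.Quotient.mk_eq_zero]
    exact LinearMap.mem_range_self _ _
  f01_x := fun _ => rfl
  f_i0 := fun _ => rfl
  f_i1 := fun _ => rfl

/-- `0 → P(m) → P(m+1) → Sky → 0` -/
noncomputable def twistSES (P : P1Mod R) (hy : Function.Injective P.y1) (m : ℤ) :
    SES (P.twist m) (P.twist (m + 1)) P.sky where
  i := P.twistIncl m
  π := P.twistProj m
  inj0 := Function.injective_id
  inj1 := hy
  inj01 := Function.injective_id
  surj0 := fun _ => ⟨(0 : P.P0), rfl⟩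
  surj1 := (LinearMap.range P.y1).mkQ_surjective
  surj01 := fun _ => ⟨(0 : P.P01), rfl⟩
  exact0 := fun y => ⟨fun _ => ⟨y, rfl⟩, fun _ => rfl⟩
  exact1 := fun (y : P.P1) => by
    show (LinearMap.range P.y1).mkQ y = 0 ↔ y ∈ Set.range P.y1
    rw [Submodule.mkQ_apply, Submodule.Quotient.mk_eq_zero]
    rfl
  exact01 := fun y => ⟨fun _ => ⟨y, rfl⟩, fun _ => rfl⟩

theorem chi_sky {k : Type u} [Field k] (P : P1Mod k) :
    P.sky.chi = Module.finrank k (P.P1 ⧸ LinearMap.range P.y1) := by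
  have : Module.Finite k P.sky.P0 := inferInstanceAs (Module.Finite k PUnit.{u + 1})
  have : Module.Finite k P.sky.P1 := P.finite_quot_y1
  rw [chi_of_finite]
  have h0 : Module.finrank k P.sky.P0 = 0 :=
    @Module.finrank_zero_of_subsingleton k PUnit.{u + 1} _ _ _ _ _
  have h01 : Module.finrank k P.sky.P01 = 0 :=
    @Module.finrank_zero_of_subsingleton k PUnit.{u + 1} _ _ _ _ _
  rw [h0, h01]
  simp
  rfl

theorem chi_twist_succ {k : Type u} [Field k] (P : P1Mod k) (hy : Function.Injective P.y1)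
    (hfin : ∀ m : ℤ, Module.Finite k (P.twist m).H0) (m : ℤ) :
    (P.twist (m + 1)).chi =
      (P.twist m).chi + Module.finrank k (P.P1 ⧸ LinearMap.range P.y1) := by
  rw [(P.twistSES hy m).chi_add (hfin (m + 1)), chi_sky]

theorem twist_zero (P : P1Mod R) : P.twist 0 = P := by
  cases P
  simp only [twist, zpow_zero]
  congr

theorem chi_twist {k : Type u} [Field k] (P : P1Mod k) (hy : Function.Injective P.y1)
    (hfin : ∀ m : ℤ, Module.Finite k (P.twist m).H0) (m : ℤ) :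
    (P.twist m).chi = P.chi + m * Module.finrank k (P.P1 ⧸ LinearMap.range P.y1) := by
  induction m using Int.induction_on with
  | zero => rw [twist_zero]; simp
  | succ i ih =>
    rw [chi_twist_succ P hy hfin, ih]
    ring
  | pred i ih =>
    have h := chi_twist_succ P hy hfin (-(i : ℤ) - 1)
    rw [sub_add_cancel, ih] at h
    have : (P.twist (-(i : ℤ) - 1)).chi = P.chi + -(i : ℤ) *
        Module.finrank k (P.P1 ⧸ LinearMap.range P.y1) -
          Module.finrank k (P.P1 ⧸ LinearMap.range P.y1) := by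
      rw [h]; ring
    rw [this]
    ring

end P1Mod

end Fermat.Agent.S26
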