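/-
S26 / P1 / TC-2 : `H¹` of a `P1Mod` commutes with every base change (right exactness).
-/
import Fermat.Agent.S26.P1.Defs
import Fermat.Agent.S26.P1.Finite

set_option autoImplicit false
set_option linter.style.haveILetI false

open scoped TensorProduct

universe u

namespace Fermat.Agent.S26

section IsBCGeneral

variable {S S' : Type u} [CommRing S] [CommRing S'] {φ : S →+* S'}
  {M M' : Type u} [AddCommGroup M] [Module S M] [AddCommGroup M'] [Module S' M']

/-- induction principle for a base change -/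
theorem IsBC.bcInduction {g : M →ₛₗ[φ] M'} (hg : IsBC φ g) (motive : M' → Prop)
    (zero : motive 0) (base : ∀ m : M, motive (g m))
    (smul : ∀ (s : S') (n : M'), motive n → motive (s • n))
    (add : ∀ n₁ n₂ : M', motive n₁ → motive n₂ → motive (n₁ + n₂)) (x : M') : motive x := by
  letI := φ.toAlgebra
  letI := Module.compHom M' φ
  haveI : IsScalarTower S S' M' := IsScalarTower.of_algebraMap_smul fun _ _ => rfl
  have h : IsBaseChange S' (semiToLin φ g) := hg
  exact h.inductionOn x motive zero base smul add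

/-- the image of a base change map spans -/
theorem IsBC.bcSpan_range_eq_top {g : M →ₛₗ[φ] M'} (hg : IsBC φ g) :
    Submodule.span S' (Set.range g) = ⊤ := by
  rw [eq_top_iff]
  intro x _
  refine hg.bcInduction (fun x => x ∈ Submodule.span S' (Set.range g)) (Submodule.zero_mem _)
    (fun m => Submodule.subset_span ⟨m, rfl⟩) (fun s n hn => Submodule.smul_mem _ s hn)
    (fun _ _ h₁ h₂ => Submodule.add_mem _ h₁ h₂) x

/-- cokernels commute with base change -/
theorem IsBC.of_coker {g : M →ₛₗ[φ] M'} (hg : IsBC φ g) (W : Submodule S M)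
    (W' : Submodule S' M') (hle : W ≤ W'.comap g)
    (hspan : W' ≤ Submodule.span S' (g '' W)) :
    IsBC φ (Submodule.mapQ W W' g hle) := by
  letI := φ.toAlgebra
  letI := Module.compHom M' φ
  haveI : IsScalarTower S S' M' := IsScalarTower.of_algebraMap_smul fun _ _ => rfl
  letI := Module.compHom (M' ⧸ W') φ
  haveI : IsScalarTower S S' (M' ⧸ W') := IsScalarTower.of_algebraMap_smul fun _ _ => rfl
  have h : IsBaseChange S' (semiToLin φ g) := hg
  show IsBaseChange S' (semiToLin φ (Submodule.mapQ W W' g hle))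
  apply IsBaseChange.of_lift_unique
  intro Q _ _ _ _ q
  letI : AddCommGroup Q := Module.addCommMonoidToAddCommGroup S'
  -- the lift on `M'`
  let l : M' →ₗ[S'] Q := h.lift (q ∘ₗ W.mkQ)
  have hl : ∀ m : M, l (g m) = q (W.mkQ m) := fun m => h.lift_eq (q ∘ₗ W.mkQ) m
  have hker : W' ≤ LinearMap.ker l := by
    refine hspan.trans ?_
    rw [Submodule.span_le]
    rintro _ ⟨w, hw, rfl⟩
    show l (g w) = 0
    rw [hl]
    have : W.mkQ w = 0 := (Submodule.Quotient.mk_eq_zero W).2 hw
    rw [this, map_zero]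
  refine ⟨W'.liftQ l hker, ?_, ?_⟩
  · ext m
    exact hl m
  · intro l' hl'
    apply Submodule.linearMap_qext
    apply h.algHom_ext
    intro m
    have := LinearMap.congr_fun hl' (W.mkQ m)
    show l' (W'.mkQ (g m)) = l (g m)
    rw [hl]
    exact this

end IsBCGeneral

namespace P1Mod

variable {R : Type u} [CommRing R]

theorem Hom.range_d_le {R' : Type u} [CommRing R'] {φ : R →+* R'} {P : P1Mod R} {P' : P1Mod R'}
    (f : Hom φ P P') : LinearMap.range P.d ≤ (LinearMap.range P'.d).comap f.f01 := by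
  rintro _ ⟨a, rfl⟩
  refine ⟨(f.f0 a.1, f.f1 a.2), ?_⟩
  simp [f.f_i0, f.f_i1]

/-- the map induced on `H¹` -/
def Hom.H1map {R' : Type u} [CommRing R'] {φ : R →+* R'} {P : P1Mod R} {P' : P1Mod R'}
    (f : Hom φ P P') : P.H1 →ₛₗ[φ] P'.H1 :=
  Submodule.mapQ _ _ f.f01 f.range_d_le

theorem Hom.H1map_mk {R' : Type u} [CommRing R'] {φ : R →+* R'} {P : P1Mod R} {P' : P1Mod R'}
    (f : Hom φ P P') (q : P.P01) :
    f.H1map (Submodule.Quotient.mk q) = Submodule.Quotient.mk (f.f01 q) := rfl

theorem Hom.IsBC.isBC_H1map {R' : Type u} [CommRing R'] {φ : R →+* R'} {P : P1Mod R}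
    {P' : P1Mod R'} {f : Hom φ P P'} (hf : f.IsBC) : S26.IsBC φ f.H1map := by
  refine hf.bc01.of_coker _ _ f.range_d_le ?_
  rintro _ ⟨⟨a, b⟩, rfl⟩
  rw [d_apply]
  refine Submodule.sub_mem _ ?_ ?_
  · refine hf.bc0.bcInduction
      (fun a => P'.i0 a ∈ Submodule.span R' (f.f01 '' (LinearMap.range P.d : Set P.P01)))
      ?_ ?_ ?_ ?_ a
    · rw [map_zero]; exact Submodule.zero_mem _
    · intro m
      refine Submodule.subset_span ⟨P.d (m, 0), ⟨_, rfl⟩, ?_⟩
      simp [f.f_i0]
    · intro s n hn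
      rw [map_smul]; exact Submodule.smul_mem _ s hn
    · intro n₁ n₂ h₁ h₂
      rw [map_add]; exact Submodule.add_mem _ h₁ h₂
  · refine hf.bc1.bcInduction
      (fun b => P'.i1 b ∈ Submodule.span R' (f.f01 '' (LinearMap.range P.d : Set P.P01)))
      ?_ ?_ ?_ ?_ b
    · rw [map_zero]; exact Submodule.zero_mem _
    · intro m
      refine Submodule.subset_span ⟨P.d (0, -m), ⟨_, rfl⟩, ?_⟩
      simp [f.f_i1]
    · intro s n hn
      rw [map_smul]; exact Submodule.smul_mem _ s hn
    · intro n₁ n₂ h₁ h₂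
      rw [map_add]; exact Submodule.add_mem _ h₁ h₂

theorem exists_bound_h1 (P : P1Mod R) : ∃ N : ℕ, ∀ (k : Type u) [Field k] (φ : R →+* k)
    (P' : P1Mod k) (f : Hom φ P P'), f.IsBC → P'.h1 ≤ N := by
  obtain ⟨s, hs⟩ := (finite_H1 P).fg_top
  classical
  refine ⟨s.card, fun k _ φ P' f hf => ?_⟩
  have hspan : Submodule.span k ((s.image f.H1map : Finset P'.H1) : Set P'.H1) = ⊤ := by
    rw [eq_top_iff, ← hf.isBC_H1map.bcSpan_range_eq_top, Submodule.span_le]
    rintro _ ⟨x, rfl⟩
    have hx : x ∈ Submodule.span R (s : Set P.H1) := hs ▸ Submodule.mem_top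
    induction hx using Submodule.span_induction with
    | mem y hy => exact Submodule.subset_span (by simpa using ⟨y, hy, rfl⟩)
    | zero => rw [map_zero]; exact Submodule.zero_mem _
    | add y z _ _ hy hz => rw [map_add]; exact Submodule.add_mem _ hy hz
    | smul r y _ hy => rw [map_smulₛₗ]; exact Submodule.smul_mem _ _ hy
  calc P'.h1 = Module.finrank k (⊤ : Submodule k P'.H1) := (finrank_top k P'.H1).symm
    _ = Module.finrank k (Submodule.span k ((s.image f.H1map : Finset P'.H1) : Set P'.H1)) := by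
        rw [hspan]
    _ ≤ (s.image f.H1map).card := finrank_span_finset_le_card _
    _ ≤ s.card := Finset.card_image_le

end P1Mod

end Fermat.Agent.S26
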